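import Fermat.Agent.S44.Soft.Pol

/-!
# S41 / E1a : Deligne-Serre relative to `range (U_r ^ 2 - 1)`

If no normalised eigenform `g` of level `M` (`r ∣ M`) with `a_r(g)^2 = 1` is congruent to `a`
modulo a prime above `p`, there is a polynomial `Pol` in the `T_ℓ`, `ℓ ∉ S`, with `p ∤ Pol(a)` and
`Pol(T) S' ⊆ range (U_r ^ 2 - 1)`.
-/

set_option autoImplicit false

namespace Fermat.Agent.S41.E1

open Fermat.Agent.ES Fermat.Agent.SS CuspForm ModularFormClass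

/-- abstract form. -/
theorem abstract_DS {𝕋 𝕋g F V₀ : Type*} [CommRing 𝕋] [CommRing 𝕋g] [Ring F] [AddCommGroup V₀]
    [Module ℂ V₀] (p : ℕ) [Fact p.Prime]
    (act : 𝕋 →+* Module.End ℂ V₀) (L₀ : Submodule ℤ V₀) (hfg : L₀.FG)
    (hspan : Submodule.span ℂ (L₀ : Set V₀) = ⊤)
    (hstab : ∀ t : 𝕋, ∀ x ∈ L₀, act t x ∈ L₀)
    (hint : ∀ t : 𝕋, IsIntegral ℤ t)
    (e : 𝕋) (inc : 𝕋g →+* 𝕋) (Φ : F →+* 𝕋g) (hΦ : Function.Surjective Φ) (Ψ : F →+* ZMod p)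
    (h : ∀ P : F, (∀ f, act (inc (Φ P)) f ∈ LinearMap.range (act e)) → Ψ P = 0) :
    ∃ (χ : 𝕋 →+* ℂ) (𝔪' : Ideal (integralClosure ℤ ℂ)), χ e = 0 ∧ 𝔪'.IsMaximal ∧
      ∀ P : F, Ψ P = 0 → ∃ b : integralClosure ℤ ℂ, (b : ℂ) = χ (inc (Φ P)) ∧ b ∈ 𝔪' := by
  classical
  set W : Submodule ℂ V₀ := LinearMap.range (act e) with hWdef
  have hW : ∀ t : 𝕋, W ≤ W.comap (act t) := by
    rintro t _ ⟨x, rfl⟩
    refine ⟨act t x, ?_⟩
    rw [← Module.End.mul_apply, ← Module.End.mul_apply, ← map_mul, ← map_mul, mul_comm]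
  let ρ₀ : 𝕋 →+* Module.End ℂ (V₀ ⧸ W) :=
    { toFun := fun t => W.mapQ W (act t) (hW t)
      map_one' := by
        ext x
        simp
      map_mul' := by
        intro s t
        ext x
        simp
      map_zero' := by
        ext x
        simp
      map_add' := by
        intro s t
        ext x
        simp }
  have hρ₀ : ∀ (t : 𝕋) (x : V₀), ρ₀ t (W.mkQ x) = W.mkQ (act t x) := fun t x => rfl
  have hρ₀zero : ∀ t : 𝕋, ρ₀ t = 0 ↔ ∀ x, act t x ∈ W := by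
    intro t
    constructor
    · intro ht x
      have := LinearMap.congr_fun ht (W.mkQ x)
      rw [hρ₀, LinearMap.zero_apply, Submodule.mkQ_apply, Submodule.Quotient.mk_eq_zero] at this
      exact this
    · intro ht
      ext x
      have : ρ₀ t (W.mkQ x) = 0 := by
        rw [hρ₀, Submodule.mkQ_apply, Submodule.Quotient.mk_eq_zero]
        exact ht x
      simpa using this
  set I : Ideal 𝕋 := RingHom.ker ρ₀ with hI
  set Ig : Ideal 𝕋g := RingHom.ker (ρ₀.comp inc) with hIg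
  let ρg : 𝕋g ⧸ Ig →+* Module.End ℂ (V₀ ⧸ W) := RingHom.kerLift (ρ₀.comp inc)
  have hρg : Function.Injective ρg := RingHom.kerLift_injective _
  let L : Submodule ℤ (V₀ ⧸ W) := L₀.map (W.mkQ.restrictScalars ℤ)
  have hLfg : L.FG := hfg.map _
  have hLspan : Submodule.span ℂ (L : Set (V₀ ⧸ W)) = ⊤ := by
    have h1 : (L : Set (V₀ ⧸ W)) = W.mkQ '' (L₀ : Set V₀) := rfl
    rw [h1, ← Submodule.map_span, hspan, Submodule.map_top, Submodule.range_mkQ]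
  have hLstab : ∀ t : 𝕋g ⧸ Ig, ∀ x ∈ L, ρg t x ∈ L := by
    intro t x hx
    obtain ⟨t, rfl⟩ := Ideal.Quotient.mk_surjective t
    obtain ⟨x, hx, rfl⟩ := hx
    exact ⟨act (inc t) x, hstab _ x hx, rfl⟩
  -- the character mod `p`
  let π : F →+* 𝕋g ⧸ Ig := (Ideal.Quotient.mk Ig).comp Φ
  have hπ : Function.Surjective π := Ideal.Quotient.mk_surjective.comp hΦ
  have hker : RingHom.ker π ≤ RingHom.ker Ψ := by
    intro P hP
    rw [RingHom.mem_ker] at hP ⊢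
    apply h
    have h1 : Φ P ∈ Ig := Ideal.Quotient.eq_zero_iff_mem.1 hP
    rw [hIg, RingHom.mem_ker, RingHom.comp_apply] at h1
    exact (hρ₀zero _).1 h1
  let χb : 𝕋g ⧸ Ig →+* ZMod p := RingHom.liftOfSurjective π hπ ⟨Ψ, hker⟩
  have hχb : ∀ P, χb (π P) = Ψ P := fun P =>
    RingHom.liftOfRightInverse_comp_apply π _ _ ⟨Ψ, hker⟩ P
  obtain ⟨lam, -, 𝔪', -, -, hmax, hmem⟩ :=
    S49.deligne_serre ρg hρg L hLfg hLspan hLstab (RingHom.ker χb) (RingHom.ker_ne_top χb)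
  let χg : 𝕋g ⧸ Ig →+* ℂ := ((integralClosure ℤ ℂ).val.toRingHom).comp lam
  have hle : Ig ≤ I.comap inc := by
    rw [hI, hIg, RingHom.comap_ker]
  have hle' : I.comap inc ≤ Ig := by
    rw [hI, hIg, RingHom.comap_ker]
  let j : 𝕋g ⧸ Ig →+* 𝕋 ⧸ I := Ideal.quotientMap I inc hle
  have hj : Function.Injective j := Ideal.quotientMap_injective' hle'
  obtain ⟨χR, hχR⟩ := exists_ringHom_extend_of_int j hj (by
    intro b
    obtain ⟨t, rfl⟩ := Ideal.Quotient.mk_surjective b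
    have h1 : IsIntegral ℤ (Ideal.Quotient.mk I t) := (hint t).map (Ideal.Quotient.mk I).toIntAlgHom
    obtain ⟨q, hq, hq0⟩ := h1
    exact ⟨q, hq, by rwa [Subsingleton.elim (Int.castRingHom _) (algebraMap ℤ _)]⟩) χg
  refine ⟨χR.comp (Ideal.Quotient.mk I), 𝔪', ?_, hmax, fun P hP => ⟨lam (π P), ?_, ?_⟩⟩
  · have : e ∈ I := by
      rw [hI, RingHom.mem_ker, hρ₀zero]
      exact fun x => ⟨x, rfl⟩
    rw [RingHom.comp_apply, Ideal.Quotient.eq_zero_iff_mem.2 this, map_zero]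
  · have h1 := hχR (π P)
    have h2 : j (π P) = Ideal.Quotient.mk I (inc (Φ P)) := rfl
    show ((lam (π P) : integralClosure ℤ ℂ) : ℂ) = χR (Ideal.Quotient.mk I (inc (Φ P)))
    rw [← h2, h1]
    rfl
  · apply hmem
    rw [RingHom.mem_ker, hχb, hP]

/-- copy of `SS.exists_isNormalizedEigenform_of_eigenvector`, with the `U_q`-eigenvalues. -/
theorem exists_eigenform_of_eigenvector (M : ℕ) [NeZero M]
    (χ : heckeAlgebra M 2 (∅ : Set ℕ) →+* ℂ)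
    (f : CuspForm (CongruenceSubgroup.Gamma0 M) 2) (hf : f ≠ 0)
    (h : ∀ t : heckeAlgebra M 2 (∅ : Set ℕ),
      (t : Module.End ℂ (CuspForm (CongruenceSubgroup.Gamma0 M) 2)) f = χ t • f) :
    ∃ g : CuspForm (CongruenceSubgroup.Gamma0 M) 2, g.IsNormalizedEigenform ∧
      (∀ (ℓ : ℕ) (hℓ : ℓ.Prime) (hℓM : ¬ ℓ ∣ M),
        qCoeff g ℓ = χ (heckeAlgebra.T hℓ hℓM (Set.notMem_empty ℓ))) ∧
      (∀ (q : ℕ) (hq : q.Prime) (hqM : q ∣ M),
        qCoeff g q = χ (heckeAlgebra.U hq hqM (Set.notMem_empty q))) := by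
  classical
  set b : ℕ → ℂ := fun n => qCoeff f n with hb
  let e' : ℕ → ℂ := fun ℓ => if ℓ ∣ M then 0 else (ℓ : ℂ)
  -- the eigenvalue at `ℓ`
  let lam : ℕ → ℂ := fun ℓ =>
    if hℓ : ℓ.Prime then
      (if hℓM : ℓ ∣ M then χ (heckeAlgebra.U hℓ hℓM (Set.notMem_empty ℓ))
       else χ (heckeAlgebra.T hℓ hℓM (Set.notMem_empty ℓ)))
    else 0
  have hrel : ∀ ℓ : ℕ, ℓ.Prime →
      ∀ n : ℕ, b (ℓ * n) + e' ℓ * (if ℓ ∣ n then b (n / ℓ) else 0) = lam ℓ * b n := by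
    intro ℓ hℓ n
    by_cases hℓM : ℓ ∣ M
    · have h1 := h (heckeAlgebra.U hℓ hℓM (Set.notMem_empty ℓ))
      rw [heckeAlgebra.coe_U] at h1
      have h2 := S49.qCoeff_heckeULin hℓ hℓM f n
      rw [h1, S49.qCoeff_smul] at h2
      simp only [e', lam, dif_pos hℓ, dif_pos hℓM, if_pos hℓM, zero_mul, add_zero, hb]
      rw [h2, mul_comm]
    · have h1 := h (heckeAlgebra.T hℓ hℓM (Set.notMem_empty ℓ))
      rw [heckeAlgebra.coe_T] at h1
      have h2 := S49.qCoeff_heckeTLin hℓ hℓM f n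
      rw [h1, S49.qCoeff_smul] at h2
      simp only [e', lam, dif_pos hℓ, dif_neg hℓM, if_neg hℓM, hb]
      rw [h2, mul_comm n ℓ]
      split_ifs <;> simp
  have hb0 : b 0 = 0 := S49.qCoeff_index_zero f
  have hb1 : b 1 ≠ 0 := by
    intro hb1
    apply hf
    apply S49.eq_zero_of_qCoeff
    exact S49.eq_zero_of_relations (e := e') hb0 hb1 fun ℓ hℓ => ⟨lam ℓ, hrel ℓ hℓ⟩
  -- the normalised eigenform
  let g : CuspForm (CongruenceSubgroup.Gamma0 M) 2 := (b 1)⁻¹ • f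
  have hg : ∀ n, qCoeff g n = (b 1)⁻¹ * b n := fun n => S49.qCoeff_smul _ f n
  have hcℓ : ∀ ℓ : ℕ, ℓ.Prime → lam ℓ = qCoeff g ℓ := by
    intro ℓ hℓ
    have h1 := hrel ℓ hℓ 1
    have h2 : ¬ ℓ ∣ 1 := fun hd => hℓ.one_lt.ne' (Nat.dvd_one.1 hd)
    rw [if_neg h2, mul_zero, add_zero, mul_one] at h1
    rw [hg, h1]
    field_simp
  have hsys : FormalHecke.IsEigensystem e' (fun n => qCoeff g n) := by
    refine ⟨?_, fun ℓ hℓ n => ?_⟩
    · change qCoeff g 1 = 1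
      rw [hg]
      exact inv_mul_cancel₀ hb1
    · have h1 := hcℓ ℓ hℓ
      change qCoeff g (ℓ * n) + e' ℓ * (if ℓ ∣ n then qCoeff g (n / ℓ) else 0) =
        qCoeff g ℓ * qCoeff g n
      rw [← h1, hg, hg, hg]
      have h2 := hrel ℓ hℓ n
      split_ifs at h2 ⊢ <;> linear_combination (b 1)⁻¹ * h2
  have hgeig : g.IsNormalizedEigenform :=
    { qCoeff_one := hsys.1
      qCoeff_mul_of_coprime := S49.mul_of_isEigensystem hsys
      qCoeff_prime_pow_of_not_dvd := by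
        intro p r hp hpN
        have := S49.rec_of_isEigensystem hsys p r hp
        simpa only [e', if_neg hpN] using this
      qCoeff_prime_pow_of_dvd := by
        intro p r hp hpN
        have := S49.rec_of_isEigensystem hsys p r hp
        simpa only [e', if_pos hpN, zero_mul, sub_zero] using this }
  refine ⟨g, hgeig, fun ℓ hℓ hℓM => ?_, fun q hq hqM => ?_⟩
  · rw [← hcℓ ℓ hℓ]
    simp only [lam, dif_pos hℓ, dif_neg hℓM]
  · rw [← hcℓ q hq]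
    simp only [lam, dif_pos hq, dif_pos hqM]

/-- **E1a.**  If no normalised eigenform `g` of level `M` with `a_r(g)^2 = 1` is congruent to `a`
modulo a prime above `p`, some polynomial `Pol` in the `T_ℓ` (`ℓ ∉ S`) with `p ∤ Pol(a)` maps
`S_2(Γ_0(M))` into the range of `U_r ^ 2 - 1`. -/
theorem exists_pol_range (M p r : ℕ) [NeZero M] (hp : p.Prime) (hr : r.Prime) (hrM : r ∣ M)
    (S : Finset ℕ) (hMS : ∀ q : ℕ, q.Prime → q ∣ M → q ∈ S) (a : ℕ → ℤ)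
    (hno : ¬ ∃ (g : CuspForm (CongruenceSubgroup.Gamma0 M) 2)
      (𝔪 : Ideal (integralClosure ℤ ℂ)), g.IsNormalizedEigenform ∧ 𝔪.IsMaximal ∧
        (p : integralClosure ℤ ℂ) ∈ 𝔪 ∧ (∀ ℓ : ℕ, ℓ.Prime → ℓ ∉ S →
          ∃ b : integralClosure ℤ ℂ, (b : ℂ) = qCoeff g ℓ ∧
            b - ((a ℓ : ℤ) : integralClosure ℤ ℂ) ∈ 𝔪) ∧ qCoeff g r ^ 2 = 1) :
    ∃ Pol : FreeAlgebra ℤ (GP S),
      (∀ f : CuspForm (CongruenceSubgroup.Gamma0 M) 2,
        FreeAlgebra.lift ℤ (fun ℓ : GP S => D.heckeS2 M (ℓ.good hMS)) Pol f ∈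
          LinearMap.range (heckeULin 2 hrM * heckeULin 2 hrM - 1 :
            Module.End ℂ (CuspForm (CongruenceSubgroup.Gamma0 M) 2))) ∧
      ¬ (p : ℤ) ∣ FreeAlgebra.lift ℤ (fun ℓ : GP S => a ℓ.1) Pol := by
  by_contra hcon
  push Not at hcon
  apply hno
  have : Fact p.Prime := ⟨hp⟩
  let act : heckeAlgebra M 2 (∅ : Set ℕ) →+*
      Module.End ℂ (CuspForm (CongruenceSubgroup.Gamma0 M) 2) :=
    (heckeAlgebra M 2 (∅ : Set ℕ)).val.toRingHom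
  have hstab : ∀ t : heckeAlgebra M 2 (∅ : Set ℕ), ∀ x ∈ intLattice M 2,
      act t x ∈ intLattice M 2 := fun t x hx =>
    mem_intLattice_of_mem_heckeAlgebra (by norm_num) t.2 hx
  have hfin : Module.Finite ℤ (heckeAlgebra M 2 (∅ : Set ℕ)) := S22.result M 2 ∅
  have hintZ : Algebra.IsIntegral ℤ (heckeAlgebra M 2 (∅ : Set ℕ)) := inferInstance
  let U : heckeAlgebra M 2 (∅ : Set ℕ) := heckeAlgebra.U hr hrM (Set.notMem_empty r)
  let inc : heckeAlgebra M 2 (↑S : Set ℕ) →+* heckeAlgebra M 2 (∅ : Set ℕ) :=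
    (Subalgebra.inclusion (heckeAlgebra_mono (Set.empty_subset (↑S : Set ℕ)))).toRingHom
  let Φa : FreeAlgebra ℤ (GP S) →ₐ[ℤ] heckeAlgebra M 2 (↑S : Set ℕ) :=
    FreeAlgebra.lift ℤ (fun ℓ : GP S => heckeAlgebra.T ℓ.2.1 (ℓ.good hMS).2.2 ℓ.notMem_coe)
  have hΦa : ∀ P, ((Φa P : heckeAlgebra M 2 (↑S : Set ℕ)) :
      Module.End ℂ (CuspForm (CongruenceSubgroup.Gamma0 M) 2))
      = FreeAlgebra.lift ℤ (fun ℓ : GP S => D.heckeS2 M (ℓ.good hMS)) P := by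
    have : (heckeAlgebra M 2 (↑S : Set ℕ)).val.comp Φa
        = FreeAlgebra.lift ℤ (fun ℓ : GP S => D.heckeS2 M (ℓ.good hMS)) := by
      apply FreeAlgebra.hom_ext
      funext x
      simp [Φa, D.heckeS2]
      first | done | rfl
    exact fun P => DFunLike.congr_fun this P
  have hΦsurj : Function.Surjective Φa.toRingHom := by
    intro t
    obtain ⟨P, hP⟩ := RingHomAux.exists_lift_eq M S hMS t.1 t.2
    exact ⟨P, Subtype.ext ((hΦa P).trans hP)⟩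
  let Ψa : FreeAlgebra ℤ (GP S) →ₐ[ℤ] ℤ := FreeAlgebra.lift ℤ (fun ℓ : GP S => a ℓ.1)
  let Ψ : FreeAlgebra ℤ (GP S) →+* ZMod p := (Int.castRingHom (ZMod p)).comp Ψa.toRingHom
  obtain ⟨χ, 𝔪', hχe, hmax, hmem⟩ := abstract_DS p act (intLattice M 2) (intLattice_fg M 2)
    (S23.result M) hstab (fun t => hintZ.isIntegral t) (U * U - 1) inc Φa.toRingHom hΦsurj Ψ (by
      intro P hP
      show ((Ψa P : ℤ) : ZMod p) = 0
      rw [ZMod.intCast_zmod_eq_zero_iff_dvd]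
      apply hcon
      intro f
      have := hP f
      rw [← hΦa]
      exact this)
  obtain ⟨f, hf, hfχ⟩ := exists_eigenvector_of_ringHom M (∅ : Set ℕ) χ
  obtain ⟨g, hg, hgT, hgU⟩ := exists_eigenform_of_eigenvector M χ f hf hfχ
  refine ⟨g, 𝔪', hg, hmax, ?_, ?_, ?_⟩
  · obtain ⟨b, hb, hbm⟩ := hmem ((p : ℕ) : FreeAlgebra ℤ (GP S)) (by
      show ((Ψa ((p : ℕ) : FreeAlgebra ℤ (GP S)) : ℤ) : ZMod p) = 0
      rw [map_natCast]
      simp)
    have : b = (p : integralClosure ℤ ℂ) := by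
      apply Subtype.ext
      rw [hb]
      simp
    rwa [← this]
  · intro ℓ hℓ hℓS
    have hℓM : ¬ ℓ ∣ M := fun h => hℓS (hMS ℓ hℓ h)
    let ℓ' : GP S := ⟨ℓ, hℓ, hℓS⟩
    obtain ⟨b, hb, hbm⟩ := hmem (FreeAlgebra.ι ℤ ℓ' - algebraMap ℤ _ (a ℓ)) (by
      show ((Ψa (FreeAlgebra.ι ℤ ℓ' - algebraMap ℤ _ (a ℓ)) : ℤ) : ZMod p) = 0
      rw [map_sub, AlgHom.commutes, FreeAlgebra.lift_ι_apply]
      show (((a ℓ - a ℓ : ℤ)) : ZMod p) = 0
      simp)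
    refine ⟨b + ((a ℓ : ℤ) : integralClosure ℤ ℂ), ?_, by rwa [add_sub_cancel_right]⟩
    rw [hgT ℓ hℓ hℓM]
    push_cast
    rw [hb]
    have h1 : inc (Φa.toRingHom (FreeAlgebra.ι ℤ ℓ' - algebraMap ℤ _ (a ℓ)))
        = heckeAlgebra.T hℓ hℓM (Set.notMem_empty ℓ) - ((a ℓ : ℤ) : heckeAlgebra M 2 (∅ : Set ℕ)) := by
      apply Subtype.ext
      simp [inc, Φa]
      first | done | rfl
    rw [h1, map_sub, map_intCast]
    ring
  · rw [hgU r hr hrM]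
    have : χ (U * U - 1) = χ U ^ 2 - 1 := by
      rw [map_sub, map_mul, map_one, sq]
    rw [this, sub_eq_zero] at hχe
    exact hχe

end Fermat.Agent.S41.E1
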