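import Mathlib

/-!
# S41 / E1c : abstract saturation

Pure linear algebra over `ℤ`, `ℝ`, `ZMod p` (Mathlib only).

`A : Matrix I J ℤ` is the matrix of `α = (res_A, res_B)` in the coordinates of `ES/Coh`,
`T2 i`, `T1 i` are the integral Hecke matrices at the two levels (`T2 i * A = A * T1 i`),
`θ i ∈ ZMod p` the eigenvalues.

* `exists_sub_one_mem_smul_eq_zero` : a finite module over a commutative ring without nonzero
  vector killed by the ideal `I` is killed by some `r ≡ 1 mod I`;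
* `exists_sep` : if `ker (A mod p)` contains no `θ`-eigenvector there is `R` in the free algebra
  with `θ(R) = 1` and `R(T1) = 0` on `ker (A mod p)`;
* `exists_int_mul` : `P(T2) ℤ^I ⊆ A ℝ^J` implies `n P(T2) = A Z` for some `n > 0`;
* `saturation` : the final statement.
-/

set_option autoImplicit false

namespace Fermat.Agent.S41.E1

open Matrix

/-- A finite module `M'` over a commutative ring, without nonzero vector killed by the ideal `I`,
is killed by some `r ≡ 1 mod I`. -/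
theorem exists_sub_one_mem_smul_eq_zero {B M : Type*} [CommRing B] [AddCommGroup M] [Module B M]
    [Finite M] (I : Ideal B) (M' : Submodule B M)
    (h : ∀ v ∈ M', (∀ a ∈ I, a • v = 0) → v = 0) :
    ∃ r : B, r - 1 ∈ I ∧ ∀ v ∈ M', r • v = 0 := by
  induction M' using IsArtinian.induction with
  | _ M' ih =>
    by_cases hle : M' ≤ I • M'
    · exact Submodule.exists_sub_one_mem_and_smul_eq_zero_of_fg_of_le_smul I M'
        (IsNoetherian.noetherian M') hle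
    · have hlt : I • M' < M' := lt_of_le_of_ne Submodule.smul_le_right
        (fun heq => hle heq.ge)
      obtain ⟨r, hr, hr0⟩ := ih (I • M') hlt
        (fun v hv hv0 => h v (Submodule.smul_le_right hv) hv0)
      refine ⟨r, hr, fun v hv => ?_⟩
      refine h _ (M'.smul_mem r hv) fun a ha => ?_
      rw [smul_comm]
      exact hr0 _ (Submodule.smul_mem_smul ha hv)


section Mat

variable {ι I J : Type*} [Fintype I] [Fintype J] [DecidableEq I] [DecidableEq J]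

/-- the intertwining relation extends to the free algebra. -/
theorem lift_mul_eq (A : Matrix I J ℤ) (T2 : ι → Matrix I I ℤ) (T1 : ι → Matrix J J ℤ)
    (hAT : ∀ i, T2 i * A = A * T1 i) (R : FreeAlgebra ℤ ι) :
    FreeAlgebra.lift ℤ T2 R * A = A * FreeAlgebra.lift ℤ T1 R := by
  induction R using FreeAlgebra.induction with
  | grade0 n =>
    rw [AlgHom.commutes, AlgHom.commutes, Algebra.algebraMap_eq_smul_one,
      Algebra.algebraMap_eq_smul_one, Matrix.smul_mul, Matrix.one_mul, Matrix.mul_smul,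
      Matrix.mul_one]
  | grade1 i => simpa using hAT i
  | mul a b ha hb =>
    rw [map_mul, map_mul, Matrix.mul_assoc, hb, ← Matrix.mul_assoc, ha, Matrix.mul_assoc]
  | add a b ha hb => rw [map_add, map_add, Matrix.add_mul, Matrix.mul_add, ha, hb]

/-- reduction of integral matrices. -/
theorem map_cast_mul {K : Type*} [CommRing K] {X Y Z : Type*} [Fintype Y]
    (M : Matrix X Y ℤ) (M' : Matrix Y Z ℤ) :
    (M * M').map (Int.cast : ℤ → K) = M.map (Int.cast : ℤ → K) * M'.map (Int.cast : ℤ → K) :=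
  Matrix.map_mul (f := Int.castRingHom K)

theorem map_cast_mulVec {K : Type*} [CommRing K] {X Y : Type*} [Fintype Y]
    (M : Matrix X Y ℤ) (v : Y → ℤ) :
    (M.map (Int.cast : ℤ → K)) *ᵥ (fun j => ((v j : ℤ) : K)) = fun i => (((M *ᵥ v) i : ℤ) : K) := by
  funext i
  exact ((Int.castRingHom K).map_mulVec M v i).symm

/-- auxiliary form of `exists_sep`, with a commutative ring `B` through which `R ↦ R(T1)`
factors. -/
theorem exists_sep_aux {B : Type*} [CommRing B] (p : ℕ) [Fact p.Prime] (A : Matrix I J ℤ)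
    (T2 : ι → Matrix I I ℤ) (T1 : ι → Matrix J J ℤ)
    (hAT : ∀ i, T2 i * A = A * T1 i) (θ : ι → ZMod p)
    (φ : B →+* Matrix J J ℤ)
    (hφ : ∀ b : B, ∃ R : FreeAlgebra ℤ ι, FreeAlgebra.lift ℤ T1 R = φ b)
    (hφ' : ∀ R : FreeAlgebra ℤ ι, ∃ b : B, φ b = FreeAlgebra.lift ℤ T1 R)
    (hIhara : ∀ y : J → ZMod p, (A.map (Int.cast : ℤ → ZMod p)) *ᵥ y = 0 →
      (∀ i, ((T1 i).map (Int.cast : ℤ → ZMod p)) *ᵥ y = θ i • y) → y = 0) :
    ∃ R : FreeAlgebra ℤ ι, FreeAlgebra.lift ℤ θ R = 1 ∧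
      ∀ y : J → ZMod p, (A.map (Int.cast : ℤ → ZMod p)) *ᵥ y = 0 →
        ((FreeAlgebra.lift ℤ T1 R).map (Int.cast : ℤ → ZMod p)) *ᵥ y = 0 := by
  classical
  let ψ : B →+* Module.End (ZMod p) (J → ZMod p) :=
    (Matrix.toLinAlgEquiv' (R := ZMod p) (n := J)).toAlgHom.toRingHom.comp
      ((Int.castRingHom (ZMod p)).mapMatrix.comp φ)
  letI : Module B (J → ZMod p) := Module.compHom _ ψ
  have hsmul : ∀ (b : B) (v : J → ZMod p),
      b • v = ((φ b).map (Int.cast : ℤ → ZMod p)) *ᵥ v := fun b v => rfl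
  -- the kernel of `A` mod `p`
  let M' : Submodule B (J → ZMod p) :=
    { carrier := {v | (A.map (Int.cast : ℤ → ZMod p)) *ᵥ v = 0}
      add_mem' := by
        intro v w hv hw
        simp only [Set.mem_setOf_eq] at hv hw ⊢
        rw [Matrix.mulVec_add, hv, hw, add_zero]
      zero_mem' := by simp
      smul_mem' := by
        intro b v hv
        simp only [Set.mem_setOf_eq] at hv ⊢
        obtain ⟨R, hR⟩ := hφ b
        rw [hsmul, Matrix.mulVec_mulVec, ← map_cast_mul, ← hR, ← lift_mul_eq A T2 T1 hAT R,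
          map_cast_mul, ← Matrix.mulVec_mulVec, hv, Matrix.mulVec_zero] }
  -- the ideal
  let Iθ : Ideal B :=
    { carrier := {b | ∃ R : FreeAlgebra ℤ ι, FreeAlgebra.lift ℤ θ R = 0 ∧
        FreeAlgebra.lift ℤ T1 R = φ b}
      add_mem' := by
        rintro b b' ⟨R, h1, h2⟩ ⟨R', h1', h2'⟩
        exact ⟨R + R', by rw [map_add, h1, h1', add_zero], by rw [map_add, map_add, h2, h2']⟩
      zero_mem' := ⟨0, by simp, by simp⟩
      smul_mem' := by
        rintro c b ⟨R, h1, h2⟩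
        obtain ⟨Q, hQ⟩ := hφ c
        exact ⟨Q * R, by rw [map_mul, h1, mul_zero], by
          rw [map_mul, smul_eq_mul, map_mul, h2, hQ]⟩ }
  obtain ⟨r, ⟨R, hR1, hR2⟩, hr0⟩ := exists_sub_one_mem_smul_eq_zero Iθ M' (by
    intro v hv hv0
    refine hIhara v hv fun i => ?_
    obtain ⟨b, hb⟩ := hφ' (FreeAlgebra.ι ℤ i - algebraMap ℤ _ ((θ i).val : ℤ))
    have hbI : b ∈ Iθ := by
      refine ⟨_, ?_, hb.symm⟩
      rw [map_sub, FreeAlgebra.lift_ι_apply, AlgHom.commutes]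
      simp
    have h1 := hv0 b hbI
    rw [hsmul, hb, map_sub, FreeAlgebra.lift_ι_apply, AlgHom.commutes,
      Algebra.algebraMap_eq_smul_one] at h1
    have h2 : (T1 i - (((θ i).val : ℤ)) • (1 : Matrix J J ℤ)).map (Int.cast : ℤ → ZMod p)
        = (T1 i).map (Int.cast : ℤ → ZMod p) - (θ i) • (1 : Matrix J J (ZMod p)) := by
      ext a b
      simp only [Matrix.map_apply, Matrix.sub_apply, Matrix.smul_apply, Matrix.one_apply,
        smul_eq_mul]
      split_ifs <;> push_cast <;> simp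
    rw [h2, Matrix.sub_mulVec, Matrix.smul_mulVec, Matrix.one_mulVec, sub_eq_zero] at h1
    exact h1)
  refine ⟨R + 1, by rw [map_add, hR1, map_one, zero_add], fun y hy => ?_⟩
  have h1 := hr0 y hy
  rw [hsmul] at h1
  rw [map_add, hR2, map_one, map_sub, map_one, sub_add_cancel]
  exact h1

open scoped IsMulCommutative in
/-- If `ker (A mod p)` contains no `θ`-eigenvector of the commuting family `T1`, some `R` with
`θ(R) = 1` kills `ker (A mod p)`. -/
theorem exists_sep (p : ℕ) [Fact p.Prime] (A : Matrix I J ℤ)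
    (T2 : ι → Matrix I I ℤ) (T1 : ι → Matrix J J ℤ) (hcomm : ∀ i j, Commute (T1 i) (T1 j))
    (hAT : ∀ i, T2 i * A = A * T1 i) (θ : ι → ZMod p)
    (hIhara : ∀ y : J → ZMod p, (A.map (Int.cast : ℤ → ZMod p)) *ᵥ y = 0 →
      (∀ i, ((T1 i).map (Int.cast : ℤ → ZMod p)) *ᵥ y = θ i • y) → y = 0) :
    ∃ R : FreeAlgebra ℤ ι, FreeAlgebra.lift ℤ θ R = 1 ∧
      ∀ y : J → ZMod p, (A.map (Int.cast : ℤ → ZMod p)) *ᵥ y = 0 →
        ((FreeAlgebra.lift ℤ T1 R).map (Int.cast : ℤ → ZMod p)) *ᵥ y = 0 := by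
  classical
  have hc : IsMulCommutative (Algebra.adjoin ℤ (Set.range T1)) :=
    Algebra.isMulCommutative_adjoin ℤ (by
      rintro _ ⟨i, rfl⟩ _ ⟨j, rfl⟩
      exact hcomm i j)
  have hmem : ∀ R : FreeAlgebra ℤ ι,
      FreeAlgebra.lift ℤ T1 R ∈ Algebra.adjoin ℤ (Set.range T1) := by
    intro R
    induction R using FreeAlgebra.induction with
    | grade0 n =>
      rw [AlgHom.commutes]
      exact Subalgebra.algebraMap_mem _ n
    | grade1 i =>
      rw [FreeAlgebra.lift_ι_apply]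
      exact Algebra.subset_adjoin ⟨i, rfl⟩
    | mul a b ha hb =>
      rw [map_mul]
      exact Subalgebra.mul_mem _ ha hb
    | add a b ha hb =>
      rw [map_add]
      exact Subalgebra.add_mem _ ha hb
  refine exists_sep_aux (B := Algebra.adjoin ℤ (Set.range T1)) p A T2 T1 hAT θ
    (Algebra.adjoin ℤ (Set.range T1)).val.toRingHom ?_ (fun R => ⟨⟨_, hmem R⟩, rfl⟩) hIhara
  rintro ⟨b, hb⟩
  show ∃ R : FreeAlgebra ℤ ι, FreeAlgebra.lift ℤ T1 R = b
  induction hb using Algebra.adjoin_induction with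
  | mem x hx =>
    obtain ⟨i, rfl⟩ := hx
    exact ⟨FreeAlgebra.ι ℤ i, FreeAlgebra.lift_ι_apply _ _⟩
  | algebraMap n => exact ⟨algebraMap ℤ _ n, AlgHom.commutes _ _⟩
  | add x y _ _ hx hy =>
    obtain ⟨R, rfl⟩ := hx
    obtain ⟨R', rfl⟩ := hy
    exact ⟨R + R', map_add _ _ _⟩
  | mul x y _ _ hx hy =>
    obtain ⟨R, rfl⟩ := hx
    obtain ⟨R', rfl⟩ := hy
    exact ⟨R * R', map_mul _ _ _⟩

/-- common denominator of a finite family of rationals. -/
theorem exists_common_den {S : Type*} [Fintype S] (q : S → ℚ) :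
    ∃ n : ℕ, 0 < n ∧ ∀ s, ∃ z : ℤ, (z : ℚ) = n * q s := by
  classical
  refine ⟨∏ s, (q s).den, Finset.prod_pos fun s _ => (q s).den_pos, fun s => ?_⟩
  obtain ⟨t, ht⟩ := Finset.dvd_prod_of_mem (fun s => (q s).den) (Finset.mem_univ s)
  refine ⟨t * (q s).num, ?_⟩
  rw [ht]
  push_cast
  have := Rat.den_mul_eq_num (q s)
  linear_combination (-(t : ℚ)) * this

/-- A system of integral linear equations `A Y = Pm` which is solvable over `ℝ` (column by
column) is solvable over `ℤ` after multiplication by a positive integer. -/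
theorem exists_int_mul {X : Type*} [Fintype X] (A : Matrix I J ℤ) (Pm : Matrix I X ℤ)
    (h : ∀ x : X, ∃ y : J → ℝ, (A.map (Int.cast : ℤ → ℝ)) *ᵥ y = fun i => ((Pm i x : ℤ) : ℝ)) :
    ∃ (n : ℕ) (Z : Matrix J X ℤ), 0 < n ∧ A * Z = (n : ℤ) • Pm := by
  classical
  choose y hy using h
  -- a `ℚ`-linear retraction of `ℚ → ℝ`
  obtain ⟨π, hπ⟩ := LinearMap.exists_leftInverse_of_injective (Algebra.linearMap ℚ ℝ)
    (LinearMap.ker_eq_bot.2 (algebraMap ℚ ℝ).injective)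
  have hπq : ∀ q : ℚ, π (q : ℝ) = q := fun q => LinearMap.congr_fun hπ q
  have hπz : ∀ (a : ℤ) (t : ℝ), π ((a : ℝ) * t) = (a : ℚ) * π t := by
    intro a t
    have : (a : ℝ) * t = (a : ℚ) • t := by
      rw [Algebra.smul_def]
      simp
    rw [this, map_smul, smul_eq_mul]
  obtain ⟨n, hn, hz⟩ := exists_common_den (fun s : J × X => π (y s.2 s.1))
  choose z hz using hz
  refine ⟨n, Matrix.of fun j x => z (j, x), hn, ?_⟩
  ext i x
  have h1 := congrFun (hy x) i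
  simp only [Matrix.mulVec, dotProduct, Matrix.map_apply] at h1
  have h2 := congrArg π h1
  rw [map_sum] at h2
  simp only [hπz] at h2
  have h3 : π (((Pm i x : ℤ) : ℝ)) = ((Pm i x : ℤ) : ℚ) := by
    have := hπq ((Pm i x : ℤ) : ℚ)
    simpa using this
  rw [h3] at h2
  have h4 : (((A * Matrix.of fun j x => z (j, x)) i x : ℤ) : ℚ) = ((((n : ℤ) • Pm) i x : ℤ) : ℚ) := by
    rw [Matrix.mul_apply, Matrix.smul_apply, smul_eq_mul]
    push_cast
    rw [← h2, Finset.mul_sum]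
    refine Finset.sum_congr rfl fun j _ => ?_
    rw [Matrix.of_apply, hz (j, x)]
    ring
  exact_mod_cast h4

/-- one step of the removal of `p`. -/
theorem mem_range_of_p_smul (p : ℕ) [Fact p.Prime] (A : Matrix I J ℤ)
    (T2 : ι → Matrix I I ℤ) (T1 : ι → Matrix J J ℤ)
    (hAT : ∀ i, T2 i * A = A * T1 i) (R : FreeAlgebra ℤ ι)
    (hR : ∀ y : J → ZMod p, (A.map (Int.cast : ℤ → ZMod p)) *ᵥ y = 0 →
        ((FreeAlgebra.lift ℤ T1 R).map (Int.cast : ℤ → ZMod p)) *ᵥ y = 0)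
    (x : I → ℤ) (hx : ∃ y : J → ℤ, A *ᵥ y = (p : ℤ) • x) :
    ∃ y : J → ℤ, A *ᵥ y = FreeAlgebra.lift ℤ T2 R *ᵥ x := by
  obtain ⟨y, hy⟩ := hx
  have h1 : (A.map (Int.cast : ℤ → ZMod p)) *ᵥ (fun j => ((y j : ℤ) : ZMod p)) = 0 := by
    rw [map_cast_mulVec, hy]
    funext i
    simp
  have h2 := hR _ h1
  rw [map_cast_mulVec] at h2
  have h3 : ∀ j, ∃ w : ℤ, (FreeAlgebra.lift ℤ T1 R *ᵥ y) j = (p : ℤ) * w := by
    intro j
    have := congrFun h2 j
    exact (ZMod.intCast_zmod_eq_zero_iff_dvd _ p).1 this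
  choose w hw using h3
  refine ⟨w, ?_⟩
  have hp0 : (p : ℤ) ≠ 0 := by exact_mod_cast (Fact.out : p.Prime).ne_zero
  have h4 : (p : ℤ) • (A *ᵥ w) = (p : ℤ) • (FreeAlgebra.lift ℤ T2 R *ᵥ x) := by
    rw [← Matrix.mulVec_smul, ← Matrix.mulVec_smul, ← hy, Matrix.mulVec_mulVec,
      lift_mul_eq A T2 T1 hAT R, ← Matrix.mulVec_mulVec]
    congr 1
    funext j
    rw [hw j]
    rfl
  funext i
  have h5 := congrFun h4 i
  simp only [Pi.smul_apply, smul_eq_mul] at h5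
  exact mul_left_cancel₀ hp0 h5

/-- removal of `p ^ k`. -/
theorem mem_range_of_p_pow_smul (p : ℕ) [Fact p.Prime] (A : Matrix I J ℤ)
    (T2 : ι → Matrix I I ℤ) (T1 : ι → Matrix J J ℤ)
    (hAT : ∀ i, T2 i * A = A * T1 i) (R : FreeAlgebra ℤ ι)
    (hR : ∀ y : J → ZMod p, (A.map (Int.cast : ℤ → ZMod p)) *ᵥ y = 0 →
        ((FreeAlgebra.lift ℤ T1 R).map (Int.cast : ℤ → ZMod p)) *ᵥ y = 0)
    (k : ℕ) (x : I → ℤ) (hx : ∃ y : J → ℤ, A *ᵥ y = ((p : ℤ) ^ k) • x) :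
    ∃ y : J → ℤ, A *ᵥ y = FreeAlgebra.lift ℤ T2 (R ^ k) *ᵥ x := by
  induction k generalizing x with
  | zero => simpa using hx
  | succ k ih =>
    obtain ⟨y, hy⟩ := hx
    have h1 := mem_range_of_p_smul p A T2 T1 hAT R hR (((p : ℤ) ^ k) • x)
      ⟨y, by rw [hy, smul_smul, pow_succ']⟩
    rw [Matrix.mulVec_smul] at h1
    obtain ⟨y', hy'⟩ := ih _ h1
    refine ⟨y', ?_⟩
    rw [hy', Matrix.mulVec_mulVec, ← map_mul, ← pow_succ]

/-- **Abstract saturation, integral input** (block E1c of S41).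

`A` = matrix of `α`, `T2 i`, `T1 i` = integral Hecke matrices at the two levels, `θ i` the
eigenvalues mod `p`.  If `n P(T2) ℤ^I ⊆ A ℤ^J` for some `n > 0`, `θ(P) ≠ 0`, and `ker (A mod p)`
contains no `θ`-eigenvector (Ihara), then there is `P'` with `θ(P') ≠ 0` and
`P'(T2) (ZMod p)^I ⊆ A (ZMod p)^J`. -/
theorem saturation_int (p : ℕ) [Fact p.Prime] (A : Matrix I J ℤ)
    (T2 : ι → Matrix I I ℤ) (T1 : ι → Matrix J J ℤ) (hcomm : ∀ i j, Commute (T1 i) (T1 j))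
    (hAT : ∀ i, T2 i * A = A * T1 i) (θ : ι → ZMod p)
    (P : FreeAlgebra ℤ ι) (hPθ : FreeAlgebra.lift ℤ θ P ≠ 0)
    (n : ℕ) (hn : 0 < n)
    (hP : ∀ c : I → ℤ, ∃ y : J → ℤ, A *ᵥ y = n • (FreeAlgebra.lift ℤ T2 P *ᵥ c))
    (hIhara : ∀ y : J → ZMod p, (A.map (Int.cast : ℤ → ZMod p)) *ᵥ y = 0 →
      (∀ i, ((T1 i).map (Int.cast : ℤ → ZMod p)) *ᵥ y = θ i • y) → y = 0) :
    ∃ P' : FreeAlgebra ℤ ι, FreeAlgebra.lift ℤ θ P' ≠ 0 ∧
      (∀ c : I → ℤ, ∃ y : J → ℤ, A *ᵥ y = FreeAlgebra.lift ℤ T2 P' *ᵥ c) ∧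
      ∀ c : I → ZMod p, ∃ y : J → ZMod p, (A.map (Int.cast : ℤ → ZMod p)) *ᵥ y
        = ((FreeAlgebra.lift ℤ T2 P').map (Int.cast : ℤ → ZMod p)) *ᵥ c := by
  classical
  have hp : p.Prime := Fact.out
  obtain ⟨R, hRθ, hR⟩ := exists_sep p A T2 T1 hcomm hAT θ hIhara
  obtain ⟨k, n', hn', rfl⟩ := Nat.exists_eq_pow_mul_and_not_dvd hn.ne' p hp.ne_one
  have hint : ∀ c : I → ℤ, ∃ y : J → ℤ,
      A *ᵥ y = FreeAlgebra.lift ℤ T2 ((n' : ℤ) • (R ^ k * P)) *ᵥ c := by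
    intro c
    obtain ⟨z, hz⟩ := hP c
    obtain ⟨y, hy⟩ := mem_range_of_p_pow_smul p A T2 T1 hAT R hR k
      ((n' : ℤ) • (FreeAlgebra.lift ℤ T2 P *ᵥ c)) ⟨z, by
        rw [hz, smul_smul, ← natCast_zsmul]
        push_cast
        rfl⟩
    refine ⟨y, ?_⟩
    rw [hy, map_zsmul, map_mul, Matrix.mulVec_smul, Matrix.smul_mulVec, Matrix.mulVec_mulVec]
  refine ⟨(n' : ℤ) • (R ^ k * P), ?_, hint, fun c => ?_⟩
  · rw [map_zsmul, map_mul, map_pow, hRθ, one_pow, one_mul, zsmul_eq_mul]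
    refine mul_ne_zero ?_ hPθ
    rw [Int.cast_natCast, Ne, ZMod.natCast_eq_zero_iff]
    exact hn'
  · -- lift `c`
    set c' : I → ℤ := fun i => ((c i).val : ℤ) with hc'
    have hcc : c = fun i => ((c' i : ℤ) : ZMod p) := by
      funext i
      simp [hc']
    obtain ⟨y, hy⟩ := hint c'
    refine ⟨fun j => ((y j : ℤ) : ZMod p), ?_⟩
    rw [hcc, map_cast_mulVec, map_cast_mulVec, hy]

/-- **Abstract saturation, real input.** -/
theorem saturation (p : ℕ) [Fact p.Prime] (A : Matrix I J ℤ)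
    (T2 : ι → Matrix I I ℤ) (T1 : ι → Matrix J J ℤ) (hcomm : ∀ i j, Commute (T1 i) (T1 j))
    (hAT : ∀ i, T2 i * A = A * T1 i) (θ : ι → ZMod p)
    (P : FreeAlgebra ℤ ι) (hPθ : FreeAlgebra.lift ℤ θ P ≠ 0)
    (hP : ∀ c : I → ℤ, ∃ y : J → ℝ, (A.map (Int.cast : ℤ → ℝ)) *ᵥ y
      = ((FreeAlgebra.lift ℤ T2 P).map (Int.cast : ℤ → ℝ)) *ᵥ (fun i => ((c i : ℤ) : ℝ)))
    (hIhara : ∀ y : J → ZMod p, (A.map (Int.cast : ℤ → ZMod p)) *ᵥ y = 0 →
      (∀ i, ((T1 i).map (Int.cast : ℤ → ZMod p)) *ᵥ y = θ i • y) → y = 0) :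
    ∃ P' : FreeAlgebra ℤ ι, FreeAlgebra.lift ℤ θ P' ≠ 0 ∧
      ∀ c : I → ZMod p, ∃ y : J → ZMod p, (A.map (Int.cast : ℤ → ZMod p)) *ᵥ y
        = ((FreeAlgebra.lift ℤ T2 P').map (Int.cast : ℤ → ZMod p)) *ᵥ c := by
  classical
  obtain ⟨n, Z, hn, hZ⟩ := exists_int_mul A (FreeAlgebra.lift ℤ T2 P) (by
    intro x
    obtain ⟨y, hy⟩ := hP (Pi.single x 1)
    refine ⟨y, ?_⟩
    rw [hy, map_cast_mulVec]
    funext i
    simp)
  obtain ⟨P', h1, -, h2⟩ := saturation_int p A T2 T1 hcomm hAT θ P hPθ n hn (fun c =>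
    ⟨Z *ᵥ c, by rw [Matrix.mulVec_mulVec, hZ, Matrix.smul_mulVec, natCast_zsmul]⟩) hIhara
  exact ⟨P', h1, h2⟩

end Mat

end Fermat.Agent.S41.E1
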