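import Fermat.Agent.S41.E1.Equiv
import Fermat.Agent.S41.E1.Sat
import Fermat.Agent.S41.K.Lat
import Fermat.Agent.S44.Soft.Pol
import Fermat.Agent.S44.Soft.Defs

/-!
# S41 / E1 / Main : glue of E1b (periods), E1c (saturation) and K (dictionary)

`exists_pol_kum` : if `Pol(T) S₂(N r) ⊆ Old`, `p ∤ Pol(a)`, and Ihara's lemma holds for the `a`-eigenvectors in `Kum N p`, then there is `Pol'` with
`p ∤ Pol'(a)` and `Pol'(T) Kum (N r) p ⊆ pullA (Kum N p) + pullB (Kum N p)`.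
-/

set_option autoImplicit false
set_option linter.unusedSectionVars false

open CongruenceSubgroup AlgebraicCurve ModularCurve
open scoped MatrixGroups Matrix

namespace Fermat.Agent.S41.E1

open Fermat.Agent.ES Fermat.Agent.ES.Coh Fermat.Agent.ES.D Fermat.Agent.ES.Glue Fermat.Agent.SS
open Fermat.Agent.S44.Soft

theorem A1_eq (N r : ℕ) [NeZero N] [NeZero r] : A1 N r = K.A1 N r := rfl

theorem A2_eq (N r : ℕ) [NeZero N] [NeZero r] : A2 N r = K.A2 N r := rfl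

/-- the integral Hecke matrices commute. -/
theorem heckeMatT_comm (N : ℕ) [NeZero N] (ℓ ℓ' : GoodPrime N) :
    Commute (heckeMatT N ℓ) (heckeMatT N ℓ') := by
  apply eq_of_mulVec_perVec N
  intro f
  rw [map_mul_int, map_mul_int, ← Matrix.mulVec_mulVec, ← Matrix.mulVec_mulVec,
    ← heckePair_mem N ℓ' f, ← heckePair_mem N ℓ f, ← heckePair_mem N ℓ _, ← heckePair_mem N ℓ' _]
  congr 1
  exact DFunLike.congr_fun (CuspForm.heckeTLin_comm 2 ℓ.2.1 ℓ.2.2 ℓ'.2.1 ℓ'.2.2).eq f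

/-- `iota c = 0` iff `c ≡ 0 mod m`. -/
theorem iota_eq_zero_iff {N m : ℕ} [NeZero N] (hm : 0 < m) (c : Fin (rk N) → ℤ) :
    iota (N := N) hm c = 0 ↔ ∀ j, ((c j : ℤ) : ZMod m) = 0 := by
  constructor
  · intro h j
    obtain ⟨y, rfl⟩ := iota_ker hm c h
    simp
  · intro h
    have h2 : ∀ j, (m : ℤ) ∣ c j := fun j => (ZMod.intCast_zmod_eq_zero_iff_dvd _ _).1 (h j)
    choose y hy using h2
    have : c = m • y := funext fun j => by rw [hy j]; simp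
    rw [this, map_nsmul, Kum.nsmul_eq_zero]

/-- `iota c = iota c'` if `c ≡ c' mod m`. -/
theorem iota_congr {N m : ℕ} [NeZero N] (hm : 0 < m) (c c' : Fin (rk N) → ℤ)
    (h : ∀ j, ((c j : ℤ) : ZMod m) = ((c' j : ℤ) : ZMod m)) : iota (N := N) hm c = iota hm c' := by
  rw [← sub_eq_zero, ← map_sub, iota_eq_zero_iff]
  intro j
  rw [Pi.sub_apply, Int.cast_sub, h j, sub_self]

/-- an integral lift of a vector mod `p`. -/
def liftV {p : ℕ} {k : Type*} (y : k → ZMod p) : k → ℤ := fun i => ((y i).val : ℤ)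

theorem cast_liftV {p : ℕ} [NeZero p] {k : Type*} (y : k → ZMod p) (i : k) :
    ((liftV y i : ℤ) : ZMod p) = y i := by
  simp [liftV]

theorem cast_mulVec {p : ℕ} {k l : Type*} [Fintype l] (X : Matrix k l ℤ) (c : l → ℤ) (i : k) :
    (((X *ᵥ c) i : ℤ) : ZMod p)
      = ((X.map (Int.cast : ℤ → ZMod p)) *ᵥ fun j => ((c j : ℤ) : ZMod p)) i :=
  RingHom.map_mulVec (Int.castRingHom (ZMod p)) X c i

theorem cast_mulVec_liftV {p : ℕ} [NeZero p] {k l : Type*} [Fintype l] (X : Matrix k l ℤ)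
    (y : l → ZMod p) (i : k) :
    (((X *ᵥ liftV y) i : ℤ) : ZMod p) = ((X.map (Int.cast : ℤ → ZMod p)) *ᵥ y) i := by
  rw [cast_mulVec]
  congr 2
  funext j
  exact cast_liftV y j

variable {N r p : ℕ} [NeZero N] [NeZero r]

/-- an eigenvector mod `p` of the integral Hecke matrices gives an element of `XX`. -/
theorem iota_mem_XX [Fact p.Prime] (S : Finset ℕ) (hS : ∀ q : ℕ, q.Prime → q ∣ N * r → q ∈ S)
    (a : ℕ → ℤ) (y : Fin (rk N) → ZMod p)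
    (hy : ∀ ℓ : GP S, ((heckeMatT N (down (ℓ.good hS))).map (Int.cast : ℤ → ZMod p)) *ᵥ y
      = ((a ℓ.1 : ℤ) : ZMod p) • y) :
    iota (N := N) (Fact.out : p.Prime).pos (liftV y) ∈ XX N p S a := by
  have hp0 : 0 < p := (Fact.out : p.Prime).pos
  have : NeZero p := ⟨hp0.ne'⟩
  rw [mem_XX]
  intro ℓ _ hℓ hℓN hℓS
  let L : GP S := ⟨ℓ, hℓ, hℓS⟩
  have h1 := iota_matT (N := N) hp0 (down (L.good hS)) (liftV y)
  have h2 : heckeT N p (down (L.good hS)) (iota hp0 (liftV y))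
      = heckeKum N ℓ hℓ hℓN p (iota hp0 (liftV y)) := rfl
  rw [← h2, ← h1, ← map_zsmul]
  apply iota_congr
  intro j
  have h3 : (((matT N (down (L.good hS)) *ᵥ liftV y) j : ℤ) : ZMod p)
      = (((heckeMatT N (down (L.good hS))).map (Int.cast : ℤ → ZMod p)) *ᵥ y) j :=
    cast_mulVec_liftV _ y j
  rw [h3, hy L, Pi.smul_apply, Pi.smul_apply, smul_eq_mul, smul_eq_mul, Int.cast_mul,
    cast_liftV]

/-- **Glue of E1b, E1c, K.** -/
theorem exists_pol_kum [Fact p.Prime] (hr : r.Prime) (hrN : ¬ r ∣ N)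
    (S : Finset ℕ) (hS : ∀ q : ℕ, q.Prime → q ∣ N * r → q ∈ S) (a : ℕ → ℤ)
    (Pol : FreeAlgebra ℤ (GP S))
    (hPa : ¬ (p : ℤ) ∣ FreeAlgebra.lift ℤ (fun ℓ : GP S => a ℓ.1) Pol)
    (hOld : ∀ F, FreeAlgebra.lift ℤ (fun ℓ : GP S => heckeS2 (N * r) (ℓ.good hS)) Pol F
      ∈ E2.Old hr hrN)
    (hIhara : ∀ a1 a2 : Kum N p, a1 ∈ XX N p S a → a2 ∈ XX N p S a →
      pullA N r p a1 + pullB N r p a2 = 0 → a1 = 0 ∧ a2 = 0) :
    ∃ Pol' : FreeAlgebra ℤ (GP S),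
      ¬ (p : ℤ) ∣ FreeAlgebra.lift ℤ (fun ℓ : GP S => a ℓ.1) Pol' ∧
      ∀ v : Kum (N * r) p, ∃ u1 u2 : Kum N p,
        FreeAlgebra.lift ℤ (fun ℓ : GP S => heckeT (N * r) p (ℓ.good hS)) Pol' v
          = pullA N r p u1 + pullB N r p u2 := by
  classical
  have hp0 : 0 < p := (Fact.out : p.Prime).pos
  have : NeZero p := ⟨hp0.ne'⟩
  let A : Matrix (Fin (rk (N * r))) (Fin (rk N) ⊕ Fin (rk N)) ℤ :=
    Matrix.fromCols (A1 N r) (A2 N r)
  let T2 : GP S → Matrix (Fin (rk (N * r))) (Fin (rk (N * r))) ℤ :=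
    fun ℓ => heckeMatT (N * r) (ℓ.good hS)
  let T0 : GP S → Matrix (Fin (rk N)) (Fin (rk N)) ℤ := fun ℓ => heckeMatT N (down (ℓ.good hS))
  let T1 : GP S → Matrix (Fin (rk N) ⊕ Fin (rk N)) (Fin (rk N) ⊕ Fin (rk N)) ℤ :=
    fun ℓ => Matrix.fromBlocks (T0 ℓ) 0 0 (T0 ℓ)
  let θ : GP S → ZMod p := fun ℓ => ((a ℓ.1 : ℤ) : ZMod p)
  have hcomm : ∀ i j, Commute (T1 i) (T1 j) := by
    intro i j
    show Matrix.fromBlocks (T0 i) 0 0 (T0 i) * Matrix.fromBlocks (T0 j) 0 0 (T0 j)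
      = Matrix.fromBlocks (T0 j) 0 0 (T0 j) * Matrix.fromBlocks (T0 i) 0 0 (T0 i)
    rw [Matrix.fromBlocks_multiply, Matrix.fromBlocks_multiply,
      show T0 i * T0 j = T0 j * T0 i from
        (heckeMatT_comm N (down (i.good hS)) (down (j.good hS))).eq]
    simp
  have hAT : ∀ i, T2 i * A = A * T1 i := by
    intro i
    show heckeMatT (N * r) (i.good hS) * Matrix.fromCols (A1 N r) (A2 N r)
      = Matrix.fromCols (A1 N r) (A2 N r) * Matrix.fromBlocks (T0 i) 0 0 (T0 i)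
    rw [Matrix.mul_fromCols, Matrix.fromCols_mul_fromBlocks, heckeMatT_A1, heckeMatT_A2 hr hrN]
    simp [T0]
  have hθ : ∀ Q : FreeAlgebra ℤ (GP S), FreeAlgebra.lift ℤ θ Q ≠ 0 ↔
      ¬ (p : ℤ) ∣ FreeAlgebra.lift ℤ (fun ℓ : GP S => a ℓ.1) Q := by
    intro Q
    rw [lift_intCast (fun ℓ : GP S => a ℓ.1), Ne, ZMod.intCast_zmod_eq_zero_iff_dvd]
  obtain ⟨n, hn, hper⟩ := periods hr hrN
    (FreeAlgebra.lift ℤ (fun ℓ : GP S => FreeAlgebra.ι ℤ (ℓ.good hS)) Pol) (by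
      intro F
      rw [lift_comp_good hS]
      exact hOld F)
  have hP : ∀ c : Fin (rk (N * r)) → ℤ, ∃ y : Fin (rk N) ⊕ Fin (rk N) → ℤ,
      A *ᵥ y = n • (FreeAlgebra.lift ℤ T2 Pol *ᵥ c) := by
    intro c
    obtain ⟨c1, c2, h⟩ := hper c
    refine ⟨Sum.elim c1 c2, ?_⟩
    rw [Matrix.fromCols_mulVec_sumElim, ← h, matRep, lift_comp_good hS]
  have hIh : ∀ y : Fin (rk N) ⊕ Fin (rk N) → ZMod p,
      (A.map (Int.cast : ℤ → ZMod p)) *ᵥ y = 0 →
      (∀ i, ((T1 i).map (Int.cast : ℤ → ZMod p)) *ᵥ y = θ i • y) → y = 0 := by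
    intro y hy0 hyT
    have e1 : ∀ ℓ : GP S, ((T0 ℓ).map (Int.cast : ℤ → ZMod p)) *ᵥ (y ∘ Sum.inl)
        = θ ℓ • (y ∘ Sum.inl) := by
      intro ℓ
      have h := hyT ℓ
      rw [Matrix.fromBlocks_map, Matrix.fromBlocks_mulVec] at h
      funext j
      have h' := congrFun h (Sum.inl j)
      simpa using h'
    have e2 : ∀ ℓ : GP S, ((T0 ℓ).map (Int.cast : ℤ → ZMod p)) *ᵥ (y ∘ Sum.inr)
        = θ ℓ • (y ∘ Sum.inr) := by
      intro ℓ
      have h := hyT ℓ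
      rw [Matrix.fromBlocks_map, Matrix.fromBlocks_mulVec] at h
      funext j
      have h' := congrFun h (Sum.inr j)
      simpa using h'
    have m1 := iota_mem_XX S hS a (y ∘ Sum.inl) e1
    have m2 := iota_mem_XX S hS a (y ∘ Sum.inr) e2
    have h0 : pullA N r p (iota hp0 (liftV (y ∘ Sum.inl)))
        + pullB N r p (iota hp0 (liftV (y ∘ Sum.inr))) = 0 := by
      rw [← K.iota_A1, ← K.iota_A2, ← map_add, iota_eq_zero_iff]
      intro j
      rw [Pi.add_apply, Int.cast_add, cast_mulVec_liftV, cast_mulVec_liftV]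
      have h := congrFun hy0 j
      rw [Matrix.fromCols_map, Matrix.fromCols_mulVec] at h
      exact h
    obtain ⟨z1, z2⟩ := hIhara _ _ m1 m2 h0
    rw [iota_eq_zero_iff] at z1 z2
    funext j
    rcases j with j | j
    · have := z1 j
      rwa [cast_liftV] at this
    · have := z2 j
      rwa [cast_liftV] at this
  obtain ⟨Pol', hP'θ, hP', -⟩ := saturation_int p A T2 T1 hcomm hAT θ Pol ((hθ Pol).2 hPa) n hn hP hIh
  refine ⟨Pol', (hθ Pol').1 hP'θ, fun v => ?_⟩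
  obtain ⟨c, rfl⟩ := iota_surjective hp0 v
  obtain ⟨y, hy⟩ := hP' c
  refine ⟨iota hp0 (y ∘ Sum.inl), iota hp0 (y ∘ Sum.inr), ?_⟩
  rw [← lift_intertwine (iota hp0) (fun ℓ : GP S => matT (N * r) (ℓ.good hS))
    (fun ℓ : GP S => heckeT (N * r) p (ℓ.good hS)) (fun ℓ c => iota_matT hp0 (ℓ.good hS) c) Pol' c,
    ← K.iota_A1, ← K.iota_A2, ← map_add]
  congr 1
  rw [Matrix.fromCols_mulVec] at hy
  exact hy.symm

end Fermat.Agent.S41.E1
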