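import Fermat.Agent.S41.E1.PeriodsInst

/-!
# S41 / E1 / Equiv : Hecke equivariance of the integral matrices `A1`, `A2`

`heckeMatT (N r) ℓ * A_i = A_i * heckeMatT N ℓ`  for `ℓ ∤ N r`, by periods: both sides agree on all `perVec N f`, whose real parts fill `ℝ^(rk N)`.
-/

set_option autoImplicit false
set_option linter.unusedSectionVars false

open UpperHalfPlane ModularForm CongruenceSubgroup Matrix.SpecialLinearGroup
open scoped MatrixGroups ModularForm Matrix

namespace Fermat.Agent.S41.E1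

open Fermat.Agent.S21 ModularCurve ModularCurve.Period Fermat.Agent.S16.Shimura
open Fermat.Agent.ES.Coh Fermat.Agent.ES.D Fermat.Agent.S41.K Fermat.Agent.S41.E2

/-- an integral matrix killing all period vectors is zero. -/
theorem eq_zero_of_mulVec_perVec (N : ℕ) [NeZero N] {m : Type*} (X : Matrix m (Fin (rk N)) ℤ)
    (h : ∀ f : CuspForm (Gamma0 N) 2, (X.map (Int.cast : ℤ → ℂ)) *ᵥ perVec N f = 0) : X = 0 := by
  classical
  ext i j
  obtain ⟨f, hf⟩ := rePer_surjective N (Pi.single j 1)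
  have h1 := congrArg Complex.re (congrFun (h f) i)
  rw [re_mulVec] at h1
  have h2 : (fun a => (perVec N f a).re) = Pi.single j 1 := hf
  rw [h2, Matrix.mulVec_single_one] at h1
  have h3 : ((X i j : ℤ) : ℝ) = 0 := h1
  exact_mod_cast h3

theorem eq_of_mulVec_perVec (N : ℕ) [NeZero N] {m : Type*} (X Y : Matrix m (Fin (rk N)) ℤ)
    (h : ∀ f : CuspForm (Gamma0 N) 2, (X.map (Int.cast : ℤ → ℂ)) *ᵥ perVec N f
      = (Y.map (Int.cast : ℤ → ℂ)) *ᵥ perVec N f) : X = Y := by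
  rw [← sub_eq_zero]
  apply eq_zero_of_mulVec_perVec N
  intro f
  have : (X - Y).map (Int.cast : ℤ → ℂ) = X.map (Int.cast : ℤ → ℂ) - Y.map (Int.cast : ℤ → ℂ) := by
    ext a b
    simp
  rw [this, Matrix.sub_mulVec, h f, sub_self]

variable {N r : ℕ} [NeZero N] [NeZero r] [NeZero (N * r)]

/-- a good prime of level `N r` is a good prime of level `N`. -/
def down (ℓ : GoodPrime (N * r)) : GoodPrime N := ⟨ℓ.1, ℓ.2.1, fun h => ℓ.2.2 (h.mul_right r)⟩

theorem map_mul_int {a b c : Type*} [Fintype b] (X : Matrix a b ℤ) (Y : Matrix b c ℤ) :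
    (X * Y).map (Int.cast : ℤ → ℂ) = X.map (Int.cast : ℤ → ℂ) * Y.map (Int.cast : ℤ → ℂ) :=
  Matrix.map_mul (f := Int.castRingHom ℂ)

theorem heckeMatT_A1 (ℓ : GoodPrime (N * r)) :
    heckeMatT (N * r) ℓ * A1 N r = A1 N r * heckeMatT N (down ℓ) := by
  apply eq_of_mulVec_perVec N
  intro f
  rw [map_mul_int, map_mul_int, ← Matrix.mulVec_mulVec, ← Matrix.mulVec_mulVec, ← perVec_iota,
    ← heckePair_mem (N * r) ℓ (iota N r f), ← heckePair_mem N (down ℓ) f, ← perVec_iota]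
  rfl

theorem heckeMatT_A2 (hr : r.Prime) (hrN : ¬ r ∣ N) (ℓ : GoodPrime (N * r)) :
    heckeMatT (N * r) ℓ * A2 N r = A2 N r * heckeMatT N (down ℓ) := by
  apply eq_of_mulVec_perVec N
  intro f
  rw [map_mul_int, map_mul_int, ← Matrix.mulVec_mulVec, ← Matrix.mulVec_mulVec,
    ← perVec_Vr hr hrN, ← heckePair_mem (N * r) ℓ ((r : ℂ) • Vr hr hrN f),
    ← heckePair_mem N (down ℓ) f, ← perVec_Vr hr hrN]
  congr 1
  show heckeS2 (N * r) ℓ ((r : ℂ) • Vr hr hrN f) = (r : ℂ) • Vr hr hrN (heckeS2 N (down ℓ) f)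
  rw [map_smul]
  congr 1
  exact heckeT_Vr hr hrN ℓ.2.1 ℓ.2.2 f

/-- the same for polynomials in the Hecke operators. -/
theorem matRep_A1 (P : FreeAlgebra ℤ (GoodPrime (N * r))) :
    matRep (N * r) P * A1 N r
      = A1 N r * matRep N (FreeAlgebra.lift ℤ (fun ℓ => FreeAlgebra.ι ℤ (down ℓ)) P) := by
  induction P using FreeAlgebra.induction with
  | grade0 n =>
    rw [AlgHom.commutes, AlgHom.commutes, AlgHom.commutes, Algebra.algebraMap_eq_smul_one,
      Algebra.algebraMap_eq_smul_one, Matrix.smul_mul, Matrix.mul_smul, Matrix.one_mul,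
      Matrix.mul_one]
  | grade1 ℓ =>
    rw [FreeAlgebra.lift_ι_apply, matRep, matRep, FreeAlgebra.lift_ι_apply,
      FreeAlgebra.lift_ι_apply]
    exact heckeMatT_A1 ℓ
  | mul a b ha hb =>
    rw [map_mul, map_mul, map_mul, Matrix.mul_assoc, hb, ← Matrix.mul_assoc, ha, Matrix.mul_assoc]
  | add a b ha hb =>
    rw [map_add, map_add, map_add, Matrix.add_mul, Matrix.mul_add, ha, hb]

theorem matRep_A2 (hr : r.Prime) (hrN : ¬ r ∣ N) (P : FreeAlgebra ℤ (GoodPrime (N * r))) :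
    matRep (N * r) P * A2 N r
      = A2 N r * matRep N (FreeAlgebra.lift ℤ (fun ℓ => FreeAlgebra.ι ℤ (down ℓ)) P) := by
  induction P using FreeAlgebra.induction with
  | grade0 n =>
    rw [AlgHom.commutes, AlgHom.commutes, AlgHom.commutes, Algebra.algebraMap_eq_smul_one,
      Algebra.algebraMap_eq_smul_one, Matrix.smul_mul, Matrix.mul_smul, Matrix.one_mul,
      Matrix.mul_one]
  | grade1 ℓ =>
    rw [FreeAlgebra.lift_ι_apply, matRep, matRep, FreeAlgebra.lift_ι_apply,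
      FreeAlgebra.lift_ι_apply]
    exact heckeMatT_A2 hr hrN ℓ
  | mul a b ha hb =>
    rw [map_mul, map_mul, map_mul, Matrix.mul_assoc, hb, ← Matrix.mul_assoc, ha, Matrix.mul_assoc]
  | add a b ha hb =>
    rw [map_add, map_add, map_add, Matrix.add_mul, Matrix.mul_add, ha, hb]

end Fermat.Agent.S41.E1
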