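import Fermat.Agent.S41.E1.Main
import Fermat.Agent.S41.E1.Forms
import Fermat.Agent.S41.E2.Export
import Fermat.Agent.S41.K.Main

/-!
# S41 / E1 / Export : (IF-E1)

If no normalised eigenform of level `N r`, new at `r`, is congruent to `a` modulo a prime above `p`, and Ihara's lemma holds, then there is `Pol` with
`p ∤ Pol(a)` and `Pol(T) Kum (N r) p ⊆ pullA (Kum N p) + pullB (Kum N p)`.
-/

set_option autoImplicit false
set_option linter.unusedSectionVars false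

open CongruenceSubgroup AlgebraicCurve ModularCurve

namespace Fermat.Agent.S41.E1

open Fermat.Agent.ES Fermat.Agent.SS Fermat.Agent.S44.Soft CuspForm ModularFormClass

/-- **(IF-E1).** -/
theorem exists_pol {N r p : ℕ} [NeZero N] [NeZero r] (hp : p.Prime) (hr : r.Prime)
    (hrN : ¬ r ∣ N) (S : Finset ℕ) (hS : ∀ q : ℕ, q.Prime → q ∣ N * r → q ∈ S) (a : ℕ → ℤ)
    (hno : ¬ ∃ (g : CuspForm (CongruenceSubgroup.Gamma0 (N * r)) 2)
      (𝔪 : Ideal (integralClosure ℤ ℂ)), g.IsNormalizedEigenform ∧ 𝔪.IsMaximal ∧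
        (p : integralClosure ℤ ℂ) ∈ 𝔪 ∧ (∀ ℓ : ℕ, ℓ.Prime → ℓ ∉ S →
          ∃ b : integralClosure ℤ ℂ, (b : ℂ) = qCoeff g ℓ ∧
            b - ((a ℓ : ℤ) : integralClosure ℤ ℂ) ∈ 𝔪) ∧ qCoeff g r ^ 2 = 1)
    (hI : K.IharaHom N r p S a) :
    ∃ Pol : FreeAlgebra ℤ (GP S),
      ¬ (p : ℤ) ∣ FreeAlgebra.lift ℤ (fun ℓ : GP S => a ℓ.1) Pol ∧
      ∀ v : Kum (N * r) p, ∃ u1 u2 : Kum N p,
        FreeAlgebra.lift ℤ (fun ℓ : GP S => heckeT (N * r) p (ℓ.good hS)) Pol v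
          = pullA N r p u1 + pullB N r p u2 := by
  have : Fact p.Prime := ⟨hp⟩
  obtain ⟨Pol, h1, h2⟩ := exists_pol_range (N * r) p r hp hr (Dvd.intro_left N rfl) S hS a hno
  exact exists_pol_kum hr hrN S hS a Pol h2
    (fun F => E2.range_Ur_sq_sub_one_le_Old hr hrN (h1 F))
    (fun a1 a2 m1 m2 h => K.ihara_kum hp.pos hI (mem_XX.1 m1) (mem_XX.1 m2) h)

end Fermat.Agent.S41.E1
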