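import Fermat.Agent.ES.Coh.Rank

/-!
# S41 / E1 / Periods : from forms to the lattice    (block E1b)

`N' = ` a level, `N ∣ N'`.  `L = ℤ^(rk N)` = coordinates `c_i = φ (gam N i)` of `φ ∈ Hom_{par,ell}(Γ₀(N), ℤ)`.
For a group hom `j : Γ₀(N') → Γ₀(N)` the integral matrix `matOf j` is the matrix of `φ ↦ φ ∘ j` in these coordinates.

* `exists_int_of_real` : an integral vector in the real column space of an integral matrix has a multiple in the integral column space;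
* `perHom_cross`       : periods of `f ∣[2] α` at level `N'` in terms of the periods of `f` at level `N`;
* `perVec_of_perC`     : `perC N' F = perC N f ∘ j  ⟹  perVec N' F = matOf j *ᵥ perVec N f`;
* `main`               : `Pol(T) S₂(N') ⊆ range ι + range B`  ⟹  `n Pol(T) L' ⊆ A₁ L + A₂ L`.
-/

set_option autoImplicit false
set_option linter.unusedSectionVars false

open UpperHalfPlane ModularForm CongruenceSubgroup Matrix.SpecialLinearGroup
open scoped MatrixGroups ModularForm Matrix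

namespace Fermat.Agent.S41.E1

open Fermat.Agent.S21 ModularCurve ModularCurve.Period Fermat.Agent.S16.Shimura
open Fermat.Agent.ES.Coh Fermat.Agent.ES.D

/-! ### linear algebra -/

/-- a `ℚ`-linear retraction `ℝ → ℚ`. -/
theorem exists_retraction : ∃ π : ℝ →ₗ[ℚ] ℚ, ∀ q : ℚ, π (q : ℝ) = q := by
  obtain ⟨π, hπ⟩ := LinearMap.exists_leftInverse_of_injective (Algebra.linearMap ℚ ℝ)
    (LinearMap.ker_eq_bot.2 (algebraMap ℚ ℝ).injective)
  exact ⟨π, fun q => LinearMap.congr_fun hπ q⟩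

/-- an integral vector in the real column space of an integral matrix has a nonzero multiple in the integral column space. -/
theorem exists_int_of_real {m k : Type*} [Fintype m] [Fintype k] (A : Matrix m k ℤ) (v : m → ℤ)
    (x : k → ℝ) (h : (A.map (Int.cast : ℤ → ℝ)) *ᵥ x = fun i => (v i : ℝ)) :
    ∃ (n : ℕ) (c : k → ℤ), 0 < n ∧ A *ᵥ c = n • v := by
  classical
  obtain ⟨π, hπ⟩ := exists_retraction
  -- rational solution
  have hq : ∀ i, ∑ j, (A i j : ℚ) * π (x j) = (v i : ℚ) := by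
    intro i
    have h1 := congrArg π (congrFun h i)
    simp only [Matrix.mulVec, dotProduct, Matrix.map_apply, map_sum] at h1
    have h2 : π ((v i : ℤ) : ℝ) = (v i : ℚ) := by
      have := hπ (v i : ℚ)
      simpa using this
    rw [h2] at h1
    rw [← h1]
    refine Finset.sum_congr rfl fun j _ => ?_
    have h3 : ((A i j : ℤ) : ℝ) * x j = ((A i j : ℤ) : ℚ) • x j := by
      rw [Rat.smul_def]; simp
    rw [h3, map_smul, smul_eq_mul]
  -- clear denominators
  set n : ℕ := ∏ j, (π (x j)).den with hn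
  have hnpos : 0 < n := Finset.prod_pos fun j _ => (π (x j)).den_pos
  have hint : ∀ j, ∃ c : ℤ, (c : ℚ) = n * π (x j) := by
    intro j
    have hd : (π (x j)).den ∣ n := Finset.dvd_prod_of_mem _ (Finset.mem_univ j)
    obtain ⟨t, ht⟩ := hd
    refine ⟨t * (π (x j)).num, ?_⟩
    have h4 : ((π (x j)).den : ℚ) * π (x j) = (π (x j)).num := Rat.den_mul_eq_num _
    rw [ht]
    push_cast
    rw [← h4]
    ring
  choose c hc using hint
  refine ⟨n, c, hnpos, ?_⟩
  funext i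
  have h5 : ((∑ j, A i j * c j : ℤ) : ℚ) = ((n * v i : ℤ) : ℚ) := by
    push_cast
    rw [← hq i, Finset.mul_sum]
    refine Finset.sum_congr rfl fun j _ => ?_
    rw [hc j]
    ring
  have h6 : ∑ j, A i j * c j = n * v i := by exact_mod_cast h5
  simpa [Matrix.mulVec, dotProduct] using h6

/-! ### periods across levels -/

variable (N N' : ℕ) [NeZero N] [NeZero N']

/-- periods of `g = f ∣[2] α`. -/
theorem perHom_cross (α : GL (Fin 2) ℝ) (hα : 0 < α.val.det) (f : MF (Gamma0 N) 2)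
    (g : MF (Gamma0 N') 2) (hg : (g : ℍ → ℂ) = (f : ℍ → ℂ) ∣[(2 : ℤ)] α)
    (γ : Gamma0 N') (γ' : Gamma0 N)
    (h : α * mapGL ℝ (γ : SL(2, ℤ)) = mapGL ℝ (γ' : SL(2, ℤ)) * α) :
    perHom N' g (Additive.ofMul γ) = perHom N f (Additive.ofMul γ') := by
  have hF := chosenPrim_isPrim N f
  set F := chosenPrim N f with hFdef
  have hG : IsPrim (fun τ => F (α • τ)) (g : ℍ → ℂ) := by
    rw [hg]
    exact PeriodHecke.isPrim_comp_GL hF α hα
  rw [perHom_apply N' g hG γ UpperHalfPlane.I, perHom_apply N f hF γ' (α • UpperHalfPlane.I)]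
  congr 2
  have h1 : (γ : SL(2, ℤ)) • UpperHalfPlane.I = mapGL ℝ (γ : SL(2, ℤ)) • UpperHalfPlane.I := rfl
  have h2 : ((γ' : Gamma0 N) : SL(2, ℤ)) • (α • UpperHalfPlane.I)
      = mapGL ℝ ((γ' : Gamma0 N) : SL(2, ℤ)) • (α • UpperHalfPlane.I) := rfl
  rw [h1, h2, ← mul_smul, ← mul_smul, h]

/-- the matrix of `φ ↦ φ ∘ j` in the coordinates `c_i = φ (gam i)`. -/
noncomputable def matOf (j : Gamma0 N' →* Gamma0 N) : Matrix (Fin (rk N')) (Fin (rk N)) ℤ :=
  Matrix.of fun i k => lam N k (Additive.ofMul (j (gam N' i)))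

theorem comb_matOf {K : Type} [CommRing K] (j : Gamma0 N' →* Gamma0 N) (c : Fin (rk N) → K)
    (i : Fin (rk N')) :
    comb N K c (Additive.ofMul (j (gam N' i))) = (((matOf N N' j).map (Int.cast : ℤ → K)) *ᵥ c) i := by
  rw [comb_apply]
  simp only [Matrix.mulVec, dotProduct, Matrix.map_apply, matOf, Matrix.of_apply]
  exact Finset.sum_congr rfl fun k _ => mul_comm _ _

theorem perVec_of_perC (j : Gamma0 N' →* Gamma0 N) (f : CuspForm (Gamma0 N) 2)
    (F : CuspForm (Gamma0 N') 2)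
    (h : ∀ γ : Gamma0 N', perC N' F (Additive.ofMul γ) = perC N f (Additive.ofMul (j γ))) :
    perVec N' F = ((matOf N N' j).map (Int.cast : ℤ → ℂ)) *ᵥ perVec N f := by
  funext i
  rw [← comb_matOf, comb_perVec]
  exact h _

/-! ### the main statement -/

theorem re_mulVec {m k : Type*} [Fintype k] (X : Matrix m k ℤ) (y : k → ℂ) (i : m) :
    (((X.map (Int.cast : ℤ → ℂ)) *ᵥ y) i).re
      = ((X.map (Int.cast : ℤ → ℝ)) *ᵥ fun a => (y a).re) i := by
  simp only [Matrix.mulVec, dotProduct, Matrix.map_apply, Complex.re_sum]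
  refine Finset.sum_congr rfl fun j _ => ?_
  rw [← Complex.ofReal_intCast, Complex.re_ofReal_mul]

theorem perVec_add (f g : CuspForm (Gamma0 N) 2) : perVec N (f + g) = perVec N f + perVec N g := by
  funext i
  simp [perVec]

/-- one vector. -/
theorem main_aux (ι B : CuspForm (Gamma0 N) 2 →ₗ[ℂ] CuspForm (Gamma0 N') 2)
    (A₁ A₂ : Matrix (Fin (rk N')) (Fin (rk N)) ℤ)
    (h₁ : ∀ f, perVec N' (ι f) = (A₁.map (Int.cast : ℤ → ℂ)) *ᵥ perVec N f)
    (h₂ : ∀ f, perVec N' (B f) = (A₂.map (Int.cast : ℤ → ℂ)) *ᵥ perVec N f)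
    (P : FreeAlgebra ℤ (GoodPrime N'))
    (hP : ∀ F, FreeAlgebra.lift ℤ (heckeS2 N') P F ∈ LinearMap.range ι ⊔ LinearMap.range B)
    (c' : Fin (rk N') → ℤ) :
    ∃ (n : ℕ) (c : Fin (rk N) ⊕ Fin (rk N) → ℤ), 0 < n ∧
      Matrix.fromCols A₁ A₂ *ᵥ c = n • (matRep N' P *ᵥ c') := by
  obtain ⟨F, hF⟩ := rePer_surjective N' (fun i => (c' i : ℝ))
  obtain ⟨_, ⟨f₁, rfl⟩, _, ⟨f₂, rfl⟩, hsum⟩ := Submodule.mem_sup.1 (hP F)
  have h3 := liftPair_mem N' P F
  simp only at h3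
  rw [← hsum, perVec_add, h₁, h₂] at h3
  refine exists_int_of_real (Matrix.fromCols A₁ A₂) (matRep N' P *ᵥ c')
    (Sum.elim (fun a => (perVec N f₁ a).re) (fun a => (perVec N f₂ a).re)) ?_
  funext i
  have h4 := congrArg Complex.re (congrFun h3 i)
  rw [Pi.add_apply, Complex.add_re, re_mulVec, re_mulVec, re_mulVec] at h4
  have h5 : (fun a => (perVec N' F a).re) = fun i => (c' i : ℝ) := hF
  rw [h5] at h4
  have h6 : ((Matrix.fromCols A₁ A₂).map (Int.cast : ℤ → ℝ))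
      = Matrix.fromCols (A₁.map (Int.cast : ℤ → ℝ)) (A₂.map (Int.cast : ℤ → ℝ)) := by
    ext a b
    cases b <;> rfl
  rw [h6, Matrix.fromCols_mulVec, Pi.add_apply]
  have h7 : (Sum.elim (fun a => (perVec N f₁ a).re) (fun a => (perVec N f₂ a).re)) ∘ Sum.inl
      = fun a => (perVec N f₁ a).re := rfl
  have h8 : (Sum.elim (fun a => (perVec N f₁ a).re) (fun a => (perVec N f₂ a).re)) ∘ Sum.inr
      = fun a => (perVec N f₂ a).re := rfl
  rw [h7, h8, h4]
  simp only [Matrix.mulVec, dotProduct, Matrix.map_apply]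
  push_cast
  rfl

/-- **E1b.**  `Pol(T) S₂(N') ⊆ range ι + range B`  ⟹  `n Pol(T) L' ⊆ A₁ L + A₂ L`. -/
theorem main (ι B : CuspForm (Gamma0 N) 2 →ₗ[ℂ] CuspForm (Gamma0 N') 2)
    (A₁ A₂ : Matrix (Fin (rk N')) (Fin (rk N)) ℤ)
    (h₁ : ∀ f, perVec N' (ι f) = (A₁.map (Int.cast : ℤ → ℂ)) *ᵥ perVec N f)
    (h₂ : ∀ f, perVec N' (B f) = (A₂.map (Int.cast : ℤ → ℂ)) *ᵥ perVec N f)
    (P : FreeAlgebra ℤ (GoodPrime N'))
    (hP : ∀ F, FreeAlgebra.lift ℤ (heckeS2 N') P F ∈ LinearMap.range ι ⊔ LinearMap.range B) :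
    ∃ n : ℕ, 0 < n ∧ ∀ c' : Fin (rk N') → ℤ, ∃ c₁ c₂ : Fin (rk N) → ℤ,
      n • (matRep N' P *ᵥ c') = A₁ *ᵥ c₁ + A₂ *ᵥ c₂ := by
  classical
  choose n c hn hc using fun j : Fin (rk N') =>
    main_aux N N' ι B A₁ A₂ h₁ h₂ P hP (Pi.single j 1)
  refine ⟨∏ j, n j, Finset.prod_pos fun j _ => hn j, fun c' => ?_⟩
  -- the submodule of integral combinations
  set W : Submodule ℤ (Fin (rk N') → ℤ) := LinearMap.range (Matrix.fromCols A₁ A₂).mulVecLin
    with hW
  have h1 : ∀ j, (∏ j, n j) • (matRep N' P *ᵥ Pi.single j 1) ∈ W := by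
    intro j
    obtain ⟨t, ht⟩ : n j ∣ ∏ j, n j := Finset.dvd_prod_of_mem _ (Finset.mem_univ j)
    rw [ht, mul_comm, mul_smul, ← hc j]
    exact W.smul_of_tower_mem t ⟨c j, rfl⟩
  have h2 : c' = ∑ j, c' j • (Pi.single j 1 : Fin (rk N') → ℤ) := by
    funext i
    simp [Finset.sum_apply, Pi.single_apply]
  have h3 : (∏ j, n j) • (matRep N' P *ᵥ c') ∈ W := by
    have h4 : matRep N' P *ᵥ c' = ∑ j, matRep N' P *ᵥ (c' j • (Pi.single j 1 : Fin (rk N') → ℤ)) := by
      rw [← Matrix.mulVec_sum, ← h2]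
    rw [h4, Finset.smul_sum]
    refine W.sum_mem fun j _ => ?_
    rw [Matrix.mulVec_smul, smul_comm]
    exact W.smul_mem _ (h1 j)
  obtain ⟨x, hx⟩ := h3
  refine ⟨x ∘ Sum.inl, x ∘ Sum.inr, ?_⟩
  rw [← hx, Matrix.mulVecLin_apply, Matrix.fromCols_mulVec]

end Fermat.Agent.S41.E1
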