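import Fermat.Agent.S41.E1.Periods
import Fermat.Agent.S41.E2.Old
import Fermat.Agent.S41.K.Grp

/-!
# S41 / E1 / PeriodsInst : block E1b for `iota`, `Vr`, `Old` (E2) and `inclA`, `conjB` (K)

* `A1 N r`, `A2 N r` : the integral matrices of `resA`, `resB` in the coordinates `c_i = φ (gam i)`;
* `perVec_iota`, `perVec_Vr` : periods of old forms;
* `periods` : `Pol(T) S₂(N r) ⊆ Old`  ⟹  `n Pol(T) L' ⊆ A1 L + A2 L`.
-/

set_option autoImplicit false
set_option linter.unusedSectionVars false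

open UpperHalfPlane ModularForm CongruenceSubgroup Matrix.SpecialLinearGroup
open scoped MatrixGroups ModularForm Matrix

namespace Fermat.Agent.S41.E1

open Fermat.Agent.S21 ModularCurve ModularCurve.Period Fermat.Agent.S16.Shimura
open Fermat.Agent.ES.Coh Fermat.Agent.ES.D Fermat.Agent.S41.K Fermat.Agent.S41.E2
open P2MW.S_ModularForm_heckeT_slash_eq_self_of_mem_Gamma0.ModularForm.HeckeSlashInvariance

variable (N r : ℕ) [NeZero N] [NeZero r] [NeZero (N * r)]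

/-- the matrix of `resA`. -/
noncomputable def A1 : Matrix (Fin (rk (N * r))) (Fin (rk N)) ℤ := matOf N (N * r) (inclA N r)

/-- the matrix of `resB`. -/
noncomputable def A2 : Matrix (Fin (rk (N * r))) (Fin (rk N)) ℤ := matOf N (N * r) (conjB N r)

/-- `resA (comb c) = comb (A1 c)` on the generators. -/
theorem comb_A1 {K : Type} [CommRing K] (c : Fin (rk N) → K) (i : Fin (rk (N * r))) :
    resA N r K (comb N K c) (Additive.ofMul (gam (N * r) i))
      = (((A1 N r).map (Int.cast : ℤ → K)) *ᵥ c) i :=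
  comb_matOf N (N * r) (inclA N r) c i

theorem comb_A2 {K : Type} [CommRing K] (c : Fin (rk N) → K) (i : Fin (rk (N * r))) :
    resB N r K (comb N K c) (Additive.ofMul (gam (N * r) i))
      = (((A2 N r).map (Int.cast : ℤ → K)) *ᵥ c) i :=
  comb_matOf N (N * r) (conjB N r) c i

theorem perC_iota (f : CuspForm (Gamma0 N) 2) (γ : Gamma0 (N * r)) :
    perC (N * r) (iota N r f) (Additive.ofMul γ) = perC N f (Additive.ofMul (inclA N r γ)) := by
  refine perHom_cross N (N * r) 1 (by simp) (cuspIncl N f) (cuspIncl (N * r) (iota N r f)) ?_ γ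
    (inclA N r γ) (by rw [one_mul, mul_one, coe_inclA])
  rw [SlashAction.slash_one]
  rfl

theorem diag_mul_mapGL (γ : Gamma0 (N * r)) :
    heckeDiagMatrix r * mapGL ℝ (γ : SL(2, ℤ))
      = mapGL ℝ ((conjB N r γ : Gamma0 N) : SL(2, ℤ)) * heckeDiagMatrix r := by
  have hr0 : r ≠ 0 := NeZero.ne r
  apply Units.ext
  rw [Units.val_mul, Units.val_mul, val_heckeDiagMatrix hr0]
  have h10 : ((r : ℤ) : ℝ) * (((conjB N r γ : Gamma0 N) : SL(2, ℤ)) 1 0 : ℝ)
      = (((γ : SL(2, ℤ)) 1 0 : ℤ) : ℝ) := by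
    exact_mod_cast congrArg (fun z : ℤ => (z : ℝ)) (conjB_10 N r γ)
  ext i j
  fin_cases i <;> fin_cases j
  · simp [Matrix.mul_apply, Fin.sum_univ_two, mapGL_apply, conjB_00, mul_comm]
  · simp [Matrix.mul_apply, Fin.sum_univ_two, mapGL_apply, conjB_01]
  · simp only [Matrix.mul_apply, Fin.sum_univ_two, mapGL_apply]
    simp
    rw [← h10]
    push_cast
    ring
  · simp [Matrix.mul_apply, Fin.sum_univ_two, mapGL_apply, conjB_11]

variable {N r}

theorem perC_Vr (hr : r.Prime) (hrN : ¬ r ∣ N) (f : CuspForm (Gamma0 N) 2) (γ : Gamma0 (N * r)) :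
    perC (N * r) ((r : ℂ) • Vr hr hrN f) (Additive.ofMul γ)
      = perC N f (Additive.ofMul (conjB N r γ)) := by
  refine perHom_cross N (N * r) (heckeDiagMatrix r) ?_ (cuspIncl N f)
    (cuspIncl (N * r) ((r : ℂ) • Vr hr hrN f)) ?_ γ (conjB N r γ) (diag_mul_mapGL N r γ)
  · rw [val_heckeDiagMatrix hr.ne_zero, Matrix.det_fin_two_of]
    simp only [mul_one, mul_zero, sub_zero]
    exact_mod_cast hr.pos
  · funext τ
    have h1 : ((cuspIncl N f : MF (Gamma0 N) 2) : ℍ → ℂ) = ⇑f := rfl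
    rw [h1, slash_heckeDiagMatrix_apply 2 hr.ne_zero]
    have h2 : ((cuspIncl (N * r) ((r : ℂ) • Vr hr hrN f) : MF (Gamma0 (N * r)) 2) : ℍ → ℂ) τ
        = (r : ℂ) * Vr hr hrN f τ := rfl
    rw [h2, coe_Vr]
    norm_num

theorem perVec_iota (f : CuspForm (Gamma0 N) 2) :
    perVec (N * r) (iota N r f) = ((A1 N r).map (Int.cast : ℤ → ℂ)) *ᵥ perVec N f :=
  perVec_of_perC N (N * r) (inclA N r) f _ (perC_iota N r f)

theorem perVec_Vr (hr : r.Prime) (hrN : ¬ r ∣ N) (f : CuspForm (Gamma0 N) 2) :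
    perVec (N * r) ((r : ℂ) • Vr hr hrN f) = ((A2 N r).map (Int.cast : ℤ → ℂ)) *ᵥ perVec N f :=
  perVec_of_perC N (N * r) (conjB N r) f _ (perC_Vr hr hrN f)

/-- **E1b.** -/
theorem periods (hr : r.Prime) (hrN : ¬ r ∣ N) (P : FreeAlgebra ℤ (GoodPrime (N * r)))
    (hP : ∀ F, FreeAlgebra.lift ℤ (heckeS2 (N * r)) P F ∈ Old hr hrN) :
    ∃ n : ℕ, 0 < n ∧ ∀ c' : Fin (rk (N * r)) → ℤ, ∃ c₁ c₂ : Fin (rk N) → ℤ,
      n • (matRep (N * r) P *ᵥ c') = A1 N r *ᵥ c₁ + A2 N r *ᵥ c₂ := by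
  have hr0 : (r : ℂ) ≠ 0 := Nat.cast_ne_zero.mpr hr.ne_zero
  refine main N (N * r) (iota N r) ((r : ℂ) • Vr hr hrN) (A1 N r) (A2 N r) perVec_iota
    (perVec_Vr hr hrN) P fun F => ?_
  obtain ⟨a, b, hab⟩ := (mem_Old_iff hr hrN _).1 (hP F)
  rw [hab]
  refine Submodule.add_mem_sup ⟨a, rfl⟩ ⟨(r : ℂ)⁻¹ • b, ?_⟩
  rw [LinearMap.smul_apply, map_smul, smul_smul, mul_inv_cancel₀ hr0, one_smul]

end Fermat.Agent.S41.E1
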